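/-
Program A (S29 / S42), leaf (P4) of helper60's chain for `HeckeOperatorsCommuteBar` (helper30).

`F_P = ℚ̄(j, j_P)`: an intermediate field of the modular function field `FF P` that contains
`j = jgen P` and `j_P = jF P (topDiv P)` is everything.

Proof: the `|X|` embeddings `φ x : FF P → ℂ((z))` of the landed S24 local data (centre `c = 0`)
agree on `ℚ̄(j)` and take pairwise distinct values at `j_P` (Taylor series of the pairwise
distinct translates of `J(Pτ)`), so the minimal polynomial of `j_P` over `ℚ̄(j)` has at least
`|X| = [FF P : ℚ̄(j)]` roots.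
-/
import Fermat.Agent.S18.H87.Index

set_option autoImplicit false

open AlgebraicCurve ModularCurve UpperHalfPlane
open scoped MatrixGroups Manifold

noncomputable section

namespace Fermat.Agent.S29.H30

open Fermat.Agent.S24

/-- The Taylor series at a point determines a holomorphic function on the upper half plane. -/
theorem eq_of_taylorAt_eq (τ₀ : ℍ) {f g : ℍ → ℂ} (hf : MDiff f) (hg : MDiff g)
    (h : taylorAt τ₀ f = taylorAt τ₀ g) : f = g := by
  have h1 : taylorAt τ₀ ((f - g) + g) = taylorAt τ₀ (f - g) + taylorAt τ₀ g :=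
    taylorAt_add τ₀ (hf.sub hg) hg
  rw [sub_add_cancel, h] at h1
  have h2 : taylorAt τ₀ (f - g) = 0 := by
    have h3 : taylorAt τ₀ (f - g) + taylorAt τ₀ g = 0 + taylorAt τ₀ g := by
      rw [zero_add]
      exact h1.symm
    exact add_right_cancel h3
  exact sub_eq_zero.mp ((taylorAt_eq_zero_iff τ₀ (hf.sub hg)).mp h2)

/-- A simple extension inside a finite extension whose generator has at least `[L : K]`
distinct conjugates (images under ring homomorphisms to a field that agree on `K`) is
everything. -/
theorem adjoin_simple_eq_top_of_card_le {K L Ω X : Type*} [Field K] [Field L] [Field Ω]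
    [Algebra K L] [FiniteDimensional K L] [Fintype X] (ψ : X → L →+* Ω)
    (hagree : ∀ (x y : X) (e : K), ψ x (algebraMap K L e) = ψ y (algebraMap K L e))
    (α : L) (hinj : Function.Injective fun x => ψ x α)
    (hcard : Module.finrank K L ≤ Fintype.card X) :
    IntermediateField.adjoin K {α} = ⊤ := by
  classical
  rcases isEmpty_or_nonempty X with hX | ⟨⟨x₀⟩⟩
  · have h0 : Module.finrank K L = 0 := by
      have : Fintype.card X = 0 := Fintype.card_eq_zero
      omega
    have hpos : 0 < Module.finrank K L := Module.finrank_pos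
    omega
  have hint : IsIntegral K α := IsIntegral.of_finite K α
  set m := minpoly K α with hm
  have hm0 : m ≠ 0 := minpoly.ne_zero hint
  let g : K →+* Ω := (ψ x₀).comp (algebraMap K L)
  have hroot : ∀ x, ψ x α ∈ (m.map g).roots.toFinset := by
    intro x
    rw [Multiset.mem_toFinset, Polynomial.mem_roots (Polynomial.map_ne_zero hm0),
      Polynomial.IsRoot.def, Polynomial.eval_map]
    have h1 : Polynomial.eval₂ (algebraMap K L) α m = 0 := by
      have := minpoly.aeval K α
      rwa [Polynomial.aeval_def] at this
    have h2 := congrArg (ψ x) h1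
    rw [Polynomial.hom_eval₂, map_zero] at h2
    have h3 : (ψ x).comp (algebraMap K L) = g := RingHom.ext fun e => hagree x x₀ e
    rwa [h3] at h2
  have h1 : Fintype.card X ≤ (m.map g).roots.toFinset.card := by
    rw [← Finset.card_univ]
    exact Finset.card_le_card_of_injOn (fun x => ψ x α) (fun x _ => hroot x)
      (fun x _ y _ h => hinj h)
  have h2 : (m.map g).roots.toFinset.card ≤ m.natDegree :=
    ((Multiset.toFinset_card_le _).trans (Polynomial.card_roots' _)).trans
      (Polynomial.natDegree_map_le)
  have h3 : Module.finrank K (IntermediateField.adjoin K {α}) = m.natDegree :=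
    IntermediateField.adjoin.finrank hint
  apply IntermediateField.eq_of_le_of_finrank_le le_top
  rw [IntermediateField.finrank_top', h3]
  omega

/-- **(P4)** `FF P = ℚ̄(j, j_P)`. -/
theorem eq_top_of_jgen_mem_of_jtop_mem (P : ℕ) [NeZero P] (E : IntermediateField Kbar (FF P))
    (h1 : jgen P ∈ E) (h2 : jF P (topDiv P) ∈ E) : E = ⊤ := by
  classical
  have : Fintype (XX P) := Fintype.ofFinite _
  obtain ⟨L, -, hL⟩ := exists_localData_fin P (0 : Kbar)
  have hπ : jgen P - algebraMap Kbar (FF P) 0 = jgen P := by simp
  have hR : ∀ f : FF P, ∃ a ∈ (evF P).range, ∃ b ∈ (evF P).range, b ≠ 0 ∧ f = a / b := by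
    intro f
    obtain ⟨A, B, hB, hf⟩ := evF_frac P f
    exact ⟨evF P A, ⟨A, rfl⟩, evF P B, ⟨B, rfl⟩, hB, hf⟩
  have hdeg := Fermat.Agent.S18.H87.finrank_adjoin_eq_card L hR
  rw [hπ] at hdeg
  obtain ⟨hfd, hdeg⟩ := hdeg
  have hagree : ∀ (x y : XX P) (e : IntermediateField.adjoin Kbar {jgen P}),
      L.φ x (algebraMap (IntermediateField.adjoin Kbar {jgen P}) (FF P) e)
        = L.φ y (algebraMap (IntermediateField.adjoin Kbar {jgen P}) (FF P) e) := by
    intro x y e
    have he : (e : FF P) ∈ IntermediateField.adjoin Kbar {jgen P - algebraMap Kbar (FF P) 0} := by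
      rw [hπ]
      exact e.2
    exact Fermat.Agent.S18.H87.phi_eq_of_mem_adjoin L x y he
  have hev : evF P (MvPolynomial.X (topDiv P)) = jF P (topDiv P) := by simp [evF]
  have hinj : Function.Injective fun x : XX P => L.φ x (jF P (topDiv P)) := by
    intro x y h
    have h' : L.φ x (jF P (topDiv P)) = L.φ y (jF P (topDiv P)) := h
    rw [← hev, hL x, hL y] at h'
    have h'' := HahnSeries.ofPowerSeries_injective h'
    exact transl_injective P (eq_of_taylorAt_eq _ (mdiff_transl P x _) (mdiff_transl P y _) h'')
  have htop := adjoin_simple_eq_top_of_card_le (K := IntermediateField.adjoin Kbar {jgen P})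
    (fun x => L.φ x) hagree (jF P (topDiv P)) hinj hdeg.le
  have hE0 : IntermediateField.adjoin Kbar {jgen P} ≤ E := by
    rw [IntermediateField.adjoin_le_iff]
    rintro _ rfl
    exact h1
  rw [eq_top_iff]
  rintro f -
  have hf : f ∈ IntermediateField.adjoin (IntermediateField.adjoin Kbar {jgen P})
      {jF P (topDiv P)} := by
    rw [htop]
    trivial
  induction hf using IntermediateField.adjoin_induction with
  | mem a ha =>
    rw [Set.mem_singleton_iff.mp ha]
    exact h2
  | algebraMap a => exact hE0 a.2
  | add a b _ _ ha hb => exact E.add_mem ha hb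
  | inv a _ ha => exact E.inv_mem ha
  | mul a b _ _ ha hb => exact E.mul_mem ha hb

end Fermat.Agent.S29.H30
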